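import Fermat.Agent.Switch.Descent
import Fermat.Agent.Switch.IdentQ

/-!
# The covariant of degree nineteen

`klH · cov - klT · w = 12 klF · η` with `η = (hv, -hu)`, where `20 (hu, hv)` is the gradient of
`klH`; so the line through `w` in the direction `(c₄ cov w - c₆ w) / 12` is `w + t klF(w) η(w)`.
-/

set_option autoImplicit false

namespace FLTAgent.Switch3

open Switch

variable {K : Type*} [CommRing K]

/-- A twentieth of the derivative of `klH` in the first variable. -/
def hu (u v : K) : K := u^19 - 171*u^14*v^5 + 247*u^9*v^10 + 57*u^4*v^15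

/-- A twentieth of the derivative of `klH` in the second variable. -/
def hv (u v : K) : K := -57*u^15*v^4 + 247*u^10*v^9 + 171*u^5*v^14 + v^19

theorem covariant_fst (u v : K) :
    klH u v * klFv u v - klT u v * u = 12 * klF u v * hv u v := by
  unfold klH klT klF klFv hv; ring

theorem covariant_snd (u v : K) :
    klH u v * -klFu u v - klT u v * v = 12 * klF u v * -hu u v := by
  unfold klH klT klF klFu hu; ring

theorem euler_klH (u v : K) : u * hu u v + v * hv u v = klH u v := by
  unfold klH hu hv; ring

theorem grad_klF_covariant (u v : K) :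
    klFu u v * hv u v + klFv u v * -hu u v = -klT u v := by
  unfold klT klFu klFv hu hv; ring

theorem euler_klF_ring (u v : K) : u * klFu u v + v * klFv u v = 12 * klF u v := by
  unfold klF klFu klFv; ring

theorem map_hu {L : Type*} [CommRing L] (φ : K →+* L) (u v : K) :
    φ (hu u v) = hu (φ u) (φ v) := by simp [hu, map_ofNat]

theorem map_hv {L : Type*} [CommRing L] (φ : K →+* L) (u v : K) :
    φ (hv u v) = hv (φ u) (φ v) := by simp [hv, map_ofNat]

end FLTAgent.Switch3
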