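import Fermat.Agent.Switch.Semistable
import Fermat.Agent.Switch3.Forms
import Mathlib.NumberTheory.Padics.PadicVal.Basic

/-!
# Approaching a cusp at three

At a place over `3` where `w` has `klH(w)` a unit and `klF(w)` small, the point
`w + t klF(w) η(w)` has `klF` equal to `klF(w) (1 - t klT(w) + O(klF(w)))`.
-/

set_option autoImplicit false

namespace FLTAgent.Switch3

open Switch Polynomial

local notation "Qb" => AlgebraicClosure ℚ

variable (A : ValuationSubring Qb)

theorem mem_of_pow_five_mem {x : Qb} (h : x ^ 5 ∈ A) : x ∈ A := by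
  rcases A.mem_or_inv_mem x with h' | h'
  · exact h'
  · rcases eq_or_ne x 0 with rfl | hx
    · exact A.zero_mem
    · have := A.mul_mem _ _ h (A.toSubring.pow_mem h' 4)
      rwa [show x ^ 5 * x⁻¹ ^ 4 = x by field_simp] at this

theorem three_pow_dvd_of_eq (hA : A.LiesOverPrime 3) :
    ∀ (k : ℕ) (y : ℤ) (a : A), (y : Qb) = 3 ^ k * (a : Qb) → (3 : ℤ) ^ k ∣ y := by
  intro k
  induction k with
  | zero => exact fun y a _ => ⟨y, by ring⟩
  | succ k ih =>
    intro y a hy
    have hres : ∀ n : ℤ, IsLocalRing.residue A (n : A) = 0 ↔ (3 : ℤ) ∣ n := fun n => by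
      rw [residue_eq_zero_iff_mem_nonunits]
      have : ((n : A) : Qb) = (n : Qb) := map_intCast A.subtype n
      rw [this]
      exact FLTAgent.Frobenius.intCast_mem_nonunits_iff Nat.prime_three hA n
    have hy' : (y : A) = (3 : ℤ) * ((3 : A) ^ k * a) := by
      refine A.subtype_injective ?_
      simp only [map_intCast, map_mul, map_pow, map_ofNat]
      rw [show A.subtype a = (a : Qb) from rfl, hy]
      push_cast; ring
    obtain ⟨y', rfl⟩ : (3 : ℤ) ∣ y := (hres y).mp (by
      rw [hy', map_mul, (hres 3).mpr dvd_rfl, zero_mul])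
    rw [pow_succ']
    refine mul_dvd_mul_left _ (ih y' a ?_)
    push_cast at hy
    exact mul_left_cancel₀ (by norm_num : (3 : Qb) ≠ 0) (by rw [hy]; ring)

theorem padicValInt_three_of_eq (hA : A.LiesOverPrime 3) {k : ℕ} {y : ℤ} (a : A)
    (ha : IsLocalRing.residue A a ≠ 0) (hy : (y : Qb) = 3 ^ k * (a : Qb)) :
    padicValInt 3 y = k := by
  have : Fact (Nat.Prime 3) := ⟨Nat.prime_three⟩
  obtain ⟨y', rfl⟩ := three_pow_dvd_of_eq A hA k y a hy
  push_cast at hy
  have hy' : (y' : Qb) = (a : Qb) := mul_left_cancel₀ (pow_ne_zero _ (by norm_num)) hy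
  have hnd : ¬ (3 : ℤ) ∣ y' := fun hd => by
    refine ha ((residue_eq_zero_iff_mem_nonunits a).mpr ?_)
    rw [← hy']
    exact (FLTAgent.Frobenius.intCast_mem_nonunits_iff Nat.prime_three hA y').mpr hd
  have h0 : y' ≠ 0 := fun e => hnd (e ▸ dvd_zero _)
  rw [padicValInt.mul (pow_ne_zero _ (by norm_num)) h0,
    padicValInt.eq_zero_of_not_dvd (z := y') (by exact_mod_cast hnd), add_zero, padicValInt,
    Int.natAbs_pow]
  exact padicValNat.prime_pow k

theorem snd_mem_of_klH_unit (h5 : IsLocalRing.residue A 5 ≠ 0) {u v : Qb} (hH : klH u v ∈ A)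
    (hF : klF u v ∈ A) (hr : u / v ∈ A) : v ∈ A := by
  by_contra hv
  have hv0 : v ≠ 0 := fun e => hv (by rw [e]; exact A.zero_mem)
  set z : A := ⟨u / v, hr⟩ with hz
  set e : A := ⟨v⁻¹, (A.mem_or_inv_mem v).resolve_left hv⟩ with he
  have hee : IsLocalRing.residue A e = 0 := by
    rw [IsLocalRing.residue_eq_zero_iff, IsLocalRing.mem_maximalIdeal, mem_nonunits_iff]
    intro hu
    obtain ⟨f, hf⟩ := hu.exists_right_inv
    apply hv
    have : (f : Qb) = v := by
      have := congrArg Subtype.val hf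
      simp only [he, MulMemClass.coe_mul, OneMemClass.coe_one] at this
      rwa [inv_mul_eq_one₀ hv0, eq_comm] at this
    rw [← this]; exact f.2
  have key : ∀ (φ : A → A → A) (f : Qb → Qb → Qb) (n : ℕ) (hf : f u v ∈ A),
      (∀ a b, ((φ a b : A) : Qb) = f a b) → n ≠ 0 → (f u v = v ^ n * f (u / v) 1) →
      IsLocalRing.residue A (φ z 1) = 0 := by
    intro φ f n hf hφ hn hhom
    have : φ z 1 = e ^ n * ⟨f u v, hf⟩ := by
      refine Subtype.ext ?_
      rw [hφ, MulMemClass.coe_mul, SubmonoidClass.coe_pow]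
      simp only [he, hz, OneMemClass.coe_one]
      rw [hhom, ← mul_assoc, ← mul_pow, inv_mul_cancel₀ hv0, one_pow, one_mul]
    rw [this, map_mul, map_pow, hee, zero_pow hn, zero_mul]
  have rH := key klH klH 20 hH (fun a b => map_klH A.subtype a b) (by norm_num)
    (by unfold klH; field_simp)
  have rF := key klF klF 12 hF (fun a b => map_klF A.subtype a b) (by norm_num)
    (by unfold klF; field_simp)
  rw [map_klH, map_one] at rH
  rw [map_klF, map_one] at rF
  exact one_ne_zero (klH_klF_no_common_zero (by rw [map_ofNat] at h5; exact h5) _ _ rH rF).2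

theorem mem_of_klH_klF_mem (h5 : IsLocalRing.residue A 5 ≠ 0) {u v : Qb} (hH : klH u v ∈ A)
    (hF : klF u v ∈ A) : u ∈ A ∧ v ∈ A := by
  rcases A.mem_or_inv_mem (u / v) with h | h
  · have hv := snd_mem_of_klH_unit A h5 hH hF h
    refine ⟨?_, hv⟩
    by_cases hv0 : v = 0
    · subst hv0
      exact snd_mem_of_klH_unit A h5 (u := 0) (v := u)
        (by convert hH using 1; simp [klH]) (by convert hF using 1; simp [klF]) (by simp [A.zero_mem])
    · have := A.mul_mem _ _ h hv
      rwa [div_mul_cancel₀ u hv0] at this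
  · rw [inv_div] at h
    have h' : -v / u ∈ A := by rw [neg_div]; exact A.neg_mem _ h
    have hu' := snd_mem_of_klH_unit A h5 (u := -v) (v := u)
      (by convert hH using 1; unfold klH; ring) (by convert hF using 1; unfold klF; ring) h'
    refine ⟨hu', ?_⟩
    by_cases hu0 : u = 0
    · subst hu0
      exact snd_mem_of_klH_unit A h5 hH hF (by simp [A.zero_mem])
    · have := A.mul_mem _ _ h hu'
      rwa [div_mul_cancel₀ v hu0] at this

theorem dvd_sub_of_map_eq {R : Type*} [CommRing R] (f : R) {x y : R}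
    (h : Ideal.Quotient.mk (Ideal.span {f}) x = Ideal.Quotient.mk (Ideal.span {f}) y) :
    ∃ z, x - y = f * z :=
  Ideal.mem_span_singleton.mp (Ideal.Quotient.eq.mp h)

theorem klF_line {R : Type*} [CommRing R] (u v a b y : R) :
    ∃ z, klF (u + y * a) (v + y * b) =
      klF u v + y * (klFu u v * a + klFv u v * b) + z * y ^ 2 := by
  set P : R[X] := klF (C u + C a * X) (C v + C b * X) with hP
  have heval : ∀ x, P.eval x = klF (u + x * a) (v + x * b) := fun x => by
    rw [hP, ← coe_evalRingHom, map_klF]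
    simp [mul_comm x]
  have hd : P.derivative.eval 0 = klFu u v * a + klFv u v * b := by
    rw [hP]
    simp [klF, klFu, klFv, derivative_pow, map_ofNat]
    ring
  obtain ⟨z, hz⟩ := P.binomExpansion 0 y
  refine ⟨z, ?_⟩
  rw [zero_add, heval, heval, hd] at hz
  rw [hz]; simp only [zero_mul, add_zero]; ring

/-- **Near the cusp at `3`.** The point `w + t d` with `d = klF w · (η w + j klF w ^ 4 w)`. -/
theorem line_at_three (hA : A.LiesOverPrime 3) {w d : Qb × Qb} {c4 c6 Δ : ℤ}
    (hH : klH w.1 w.2 = (c4 : Qb)) (hT : klT w.1 w.2 = (c6 : Qb))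
    (hF : klF w.1 w.2 ^ 5 = (Δ : Qb)) (h25 : (3 : ℤ) ^ 25 ∣ Δ) (hΔ : Δ ≠ 0) (j : ℕ)
    (hd : d = klF w.1 w.2 • ((hv w.1 w.2, -hu w.1 w.2) + ((j : Qb) * klF w.1 w.2 ^ 4) • w))
    (t : ℤ) :
    (∀ (i : ℕ) (y : ℤ),
      (y : Qb) = 3 ^ i * (klH (w + (t : Qb) • d).1 (w + (t : Qb) • d).2 - c4) →
        (3 : ℤ) ^ (i + 5) ∣ y) ∧
    (∀ (i : ℕ) (y : ℤ),
      (y : Qb) = 3 ^ i * (klT (w + (t : Qb) • d).1 (w + (t : Qb) • d).2 - c6) →
        (3 : ℤ) ^ (i + 5) ∣ y) ∧
    ((9 : ℤ) ∣ 1 - c6 * t - 3 → ∀ y : ℤ,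
      (y : Qb) = klF (w + (t : Qb) • d).1 (w + (t : Qb) • d).2 ^ 5 →
        padicValInt 3 y = padicValInt 3 Δ + 5) := by
  have : Fact (Nat.Prime 3) := ⟨Nat.prime_three⟩
  have hres : ∀ n : ℤ, IsLocalRing.residue A (n : A) = 0 ↔ (3 : ℤ) ∣ n := fun n => by
    rw [residue_eq_zero_iff_mem_nonunits]
    have : ((n : A) : Qb) = (n : Qb) := map_intCast A.subtype n
    rw [this]
    exact FLTAgent.Frobenius.intCast_mem_nonunits_iff Nat.prime_three hA n
  have h5 : IsLocalRing.residue A 5 ≠ 0 := fun e => by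
    have := (hres 5).mp (by simpa using e)
    norm_num at this
  obtain ⟨Δ₁, hΔ₁⟩ := h25
  have hFA : klF w.1 w.2 ∈ A := mem_of_pow_five_mem A (by rw [hF]; exact intCast_mem A Δ)
  have hF1 : klF w.1 w.2 / 3 ^ 5 ∈ A := mem_of_pow_five_mem A (by
    rw [div_pow, hF, show (Δ : Qb) / ((3 : Qb) ^ 5) ^ 5 = (Δ₁ : Qb) by
      rw [hΔ₁, Int.cast_mul, Int.cast_pow, Int.cast_ofNat, ← pow_mul, mul_div_cancel_left₀ _ (pow_ne_zero _ (by norm_num : (3 : Qb) ≠ 0))]]
    exact intCast_mem A Δ₁)
  obtain ⟨hu', hv'⟩ := mem_of_klH_klF_mem A h5 (by rw [hH]; exact intCast_mem A c4) hFA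
  set u : A := ⟨w.1, hu'⟩
  set v : A := ⟨w.2, hv'⟩
  set F₁ : A := ⟨klF w.1 w.2 / 3 ^ 5, hF1⟩
  set a : A := hv u v + (j : A) * klF u v ^ 4 * u with ha
  set b : A := -hu u v + (j : A) * klF u v ^ 4 * v with hb
  have hFe : klF u v = 3 ^ 5 * F₁ := A.subtype_injective (by
    rw [map_klF, map_mul, map_pow, map_ofNat]
    show klF w.1 w.2 = 3 ^ 5 * (klF w.1 w.2 / 3 ^ 5)
    field_simp)
  have hcoe : ∀ f : ∀ {K : Type} [CommRing K], K → K → K,
      (∀ x y : A, A.subtype (f x y) = f (A.subtype x) (A.subtype y)) →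
      A.subtype (f (u + (t : A) * klF u v * a) (v + (t : A) * klF u v * b)) =
        f (w + (t : Qb) • d).1 (w + (t : Qb) • d).2 := fun f hf => by
    rw [hf]
    congr 1 <;>
    · simp only [hd, ha, hb, map_add, map_mul, map_neg, map_pow, map_intCast, map_natCast,
        map_klF, map_hu, map_hv, Prod.fst_add, Prod.snd_add, Prod.smul_fst, Prod.smul_snd,
        smul_eq_mul]
      simp only [show A.subtype u = w.1 from rfl, show A.subtype v = w.2 from rfl]
      ring
  refine ⟨fun i y hy => ?_, fun i y hy => ?_, fun ht y hy => ?_⟩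
  · obtain ⟨z, hz⟩ := dvd_sub_of_map_eq (klF u v)
      (x := klH (u + (t : A) * klF u v * a) (v + (t : A) * klF u v * b)) (y := klH u v) (by
        rw [map_klH, map_klH]
        simp only [map_add, map_mul, Ideal.Quotient.mk_singleton_self, mul_zero, zero_mul,
          add_zero])
    have hz' := congrArg A.subtype hz
    rw [map_sub, hcoe @klH (map_klH _), map_klH, hFe] at hz'
    refine three_pow_dvd_of_eq A hA (i + 5) y (F₁ * z) ?_
    simp only [map_mul, map_pow, map_ofNat, show A.subtype u = w.1 from rfl,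
      show A.subtype v = w.2 from rfl] at hz'
    rw [hy, ← hH, hz', show ((F₁ * z : A) : Qb) = A.subtype F₁ * A.subtype z from rfl, pow_add]
    ring
  · obtain ⟨z, hz⟩ := dvd_sub_of_map_eq (klF u v)
      (x := klT (u + (t : A) * klF u v * a) (v + (t : A) * klF u v * b)) (y := klT u v) (by
        rw [map_klT, map_klT]
        simp only [map_add, map_mul, Ideal.Quotient.mk_singleton_self, mul_zero, zero_mul,
          add_zero])
    have hz' := congrArg A.subtype hz
    rw [map_sub, hcoe @klT (map_klT _), map_klT, hFe] at hz'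
    refine three_pow_dvd_of_eq A hA (i + 5) y (F₁ * z) ?_
    simp only [map_mul, map_pow, map_ofNat, show A.subtype u = w.1 from rfl,
      show A.subtype v = w.2 from rfl] at hz'
    rw [hy, ← hT, hz', show ((F₁ * z : A) : Qb) = A.subtype F₁ * A.subtype z from rfl, pow_add]
    ring
  · obtain ⟨m, hm⟩ := ht
    obtain ⟨z, hz⟩ := klF_line u v a b ((t : A) * klF u v)
    set U : A := 1 + 3 * (m : A) + 4 * (j : A) * (t : A) * klF u v ^ 5 +
      3 ^ 4 * z * (t : A) ^ 2 * F₁ with hU
    have hTA : klT u v = (c6 : A) := A.subtype_injective (by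
      rw [map_klT, map_intCast]; exact hT)
    have hm' : (1 : A) - (c6 : A) * (t : A) = 3 + 9 * (m : A) := by
      have := congrArg (Int.cast : ℤ → A) hm
      push_cast at this
      linear_combination this
    have hgrad : klFu u v * a + klFv u v * b = -(c6 : A) + 12 * (j : A) * klF u v ^ 5 := by
      rw [ha, hb]
      linear_combination grad_klF_covariant u v + (j : A) * klF u v ^ 4 * euler_klF_ring u v - hTA
    have hval : klF (u + (t : A) * klF u v * a) (v + (t : A) * klF u v * b) =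
        3 * klF u v * U := by
      rw [hz, hgrad, hU]
      linear_combination klF u v * hm' + z * (t : A) ^ 2 * klF u v * hFe
    have hUres : IsLocalRing.residue A U = 1 := by
      have h3 : IsLocalRing.residue A 3 = 0 := by simpa using (hres 3).mpr dvd_rfl
      rw [hU, hFe]
      simp only [map_add, map_mul, map_pow, map_one, h3, zero_mul, mul_zero, add_zero,
        zero_pow (show 5 ≠ 0 by norm_num), zero_pow (show 4 ≠ 0 by norm_num)]
    obtain ⟨Δ₀, hΔ₀⟩ := padicValInt_dvd (p := 3) Δ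
    have hΔ₀' : ¬ (3 : ℤ) ∣ Δ₀ := fun ⟨q, hq⟩ => by
      have h := (padicValInt_dvd_iff (p := 3) (padicValInt 3 Δ + 1) Δ).mp
        ⟨q, by rw [pow_succ, mul_assoc]; push_cast; rw [← hq]; exact_mod_cast hΔ₀⟩
      rcases h with h | h
      · exact hΔ h
      · omega
    refine padicValInt_three_of_eq A hA ((Δ₀ : A) * U ^ 5) ?_ ?_
    · rw [map_mul, map_pow, hUres, one_pow, mul_one]
      exact fun e => hΔ₀' ((hres Δ₀).mp e)
    · have hv' := congrArg A.subtype hval
      rw [hcoe @klF (map_klF _), map_mul, map_mul, map_ofNat, map_klF] at hv'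
      rw [hy, hv', mul_pow, mul_pow, show klF (A.subtype u) (A.subtype v) = klF w.1 w.2 from rfl,
        hF, show (Δ : Qb) = 3 ^ padicValInt 3 Δ * (Δ₀ : Qb) by exact_mod_cast hΔ₀, pow_add]
      show _ = _ * A.subtype ((Δ₀ : A) * U ^ 5)
      rw [map_mul, map_pow, map_intCast]
      ring

end FLTAgent.Switch3
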