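import Fermat.Prelude.Def_FLTPrelim_Modularity
import Mathlib.NumberTheory.Padics.PadicVal.Basic

/-!
# Supersingular or très ramifié at three
-/

set_option autoImplicit false

namespace FLTAgent.Switch3

open WeierstrassCurve

/-- Good supersingular at `3`, or multiplicative with `v₃(Δ)` prime to `3`: the mod `3`
representation is not split at `3`. -/
def NonsplitAtThree (W : WeierstrassCurve ℤ) : Prop :=
  (¬ (3 : ℤ) ∣ W.Δ ∧ (3 : ℤ) ∣ W.apOfModel 3) ∨
    ((3 : ℤ) ∣ W.Δ ∧ ¬ 3 ∣ padicValInt 3 W.Δ)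

theorem nonsplitAtThree_of_map_eq {W W' : WeierstrassCurve ℤ}
    (h : W'.map (Int.castRingHom (ZMod 3)) = W.map (Int.castRingHom (ZMod 3)))
    (hgood : ¬ (3 : ℤ) ∣ W.Δ) (ha : (3 : ℤ) ∣ W.apOfModel 3) : NonsplitAtThree W' := by
  refine Or.inl ⟨fun hd => hgood ?_, ?_⟩
  · have e := congrArg WeierstrassCurve.Δ h
    simp only [map_Δ, eq_intCast] at e
    exact (ZMod.intCast_zmod_eq_zero_iff_dvd W.Δ 3).mp
      (e ▸ (ZMod.intCast_zmod_eq_zero_iff_dvd W'.Δ 3).mpr hd)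
  · unfold apOfModel reductionMod at ha ⊢
    rwa [h]

end FLTAgent.Switch3
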