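import Fermat.Agent.Switch.Twist
import Fermat.Agent.Switch3.Forms

/-!
# Lines in the family in a rational direction of the frame `cov w`, `w`
-/

set_option autoImplicit false

namespace FLTAgent.Switch3

open Switch Polynomial WeierstrassCurve

local notation "Qb" => AlgebraicClosure ℚ

theorem klF_line_coeff {K : Type*} [Field K] (e w : K × K) :
    (klF (C e.1 + C w.1 * X) (C e.2 + C w.2 * X) : K[X]).coeff 12 = klF w.1 w.2 := by
  set U : K[X] := C e.1 + C w.1 * X with hU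
  set V : K[X] := C e.2 + C w.2 * X with hV
  have dU : U.natDegree ≤ 1 := by rw [hU]; compute_degree
  have dV : V.natDegree ≤ 1 := by rw [hV]; compute_degree
  have cU : ∀ n, (U ^ n).coeff n = w.1 ^ n := fun n => by
    have := coeff_pow_of_natDegree_le (m := n) dU
    rw [Nat.mul_one] at this
    rw [this, hU]; simp
  have cV : ∀ n, (V ^ n).coeff n = w.2 ^ n := fun n => by
    have := coeff_pow_of_natDegree_le (m := n) dV
    rw [Nat.mul_one] at this
    rw [this, hV]; simp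
  have dn : ∀ (p : K[X]) (n : ℕ), p.natDegree ≤ 1 → (p ^ n).natDegree ≤ n := fun p n hp =>
    (natDegree_pow_le_of_le n hp).trans (by simp)
  have hmul : ∀ i j : ℕ, (U ^ i * V ^ j).coeff (i + j) = w.1 ^ i * w.2 ^ j := fun i j => by
    rw [coeff_mul_add_eq_of_natDegree_le (dn U i dU) (dn V j dV), cU, cV]
  have : klF U V = U ^ 1 * V ^ 11 - C 11 * (U ^ 6 * V ^ 6) - U ^ 11 * V ^ 1 := by
    rw [klF]; simp only [map_ofNat]; ring
  rw [this, coeff_sub, coeff_sub, coeff_C_mul, show (12 : ℕ) = 1 + 11 from rfl, hmul,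
    show 1 + 11 = 6 + 6 from rfl, hmul, show 6 + 6 = 11 + 1 from rfl, hmul]
  unfold klF; ring

/-- **The family along a line in a rational direction.** -/
theorem exists_family (A B a b c : ℚ) (hA : A ≠ 0) (hB : B ≠ 0)
    (hΔ : 4 * A ^ 3 + 27 * B ^ 2 ≠ 0) (hc : c ≠ 0) :
    ∃ (j : ℕ) (PA PB : ℚ[X]) (w d : Qb × Qb),
      PA.map (algebraMap ℚ Qb) = lineA w d ∧ PB.map (algebraMap ℚ Qb) = lineB w d ∧
      cA w.1 w.2 = algebraMap ℚ Qb A ∧ cB w.1 w.2 = algebraMap ℚ Qb B ∧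
      d = algebraMap ℚ Qb a • cov w + algebraMap ℚ Qb (b + j * c) • w ∧
      klF d.1 d.2 ≠ 0 ∧
      ∀ t : ℚ, 4 * PA.eval t ^ 3 + 27 * PB.eval t ^ 2 ≠ 0 →
        SameFive (shortQ A B) (shortQ (PA.eval t) (PB.eval t)) := by
  have := isElliptic_shortQ hΔ
  have hE : ((shortQ A B)⁄Qb).IsElliptic :=
    inferInstanceAs ((shortQ A B).map (algebraMap ℚ Qb)).IsElliptic
  obtain ⟨ζ, hζ⟩ := exists_isFifth
  obtain ⟨w, hw4, hw6⟩ := exists_fits (K := Qb) (A := algebraMap ℚ Qb A) (B := algebraMap ℚ Qb B)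
    ((_root_.map_ne_zero _).2 hA) ((_root_.map_ne_zero _).2 hB) (by
      have := (_root_.map_ne_zero (algebraMap ℚ Qb)).2 hΔ
      simpa [map_ofNat] using this)
  have hw : Fits ((shortQ A B)⁄Qb) w := fits_shortQ.2 ⟨hw4, hw6⟩
  have hH : klH w.1 w.2 ≠ 0 := fun e => by
    rw [cA, e, mul_zero] at hw4; exact (_root_.map_ne_zero _).2 hA hw4.symm
  have hT : klT w.1 w.2 ≠ 0 := fun e => by
    rw [cB, e, mul_zero] at hw6; exact (_root_.map_ne_zero _).2 hB hw6.symm
  have hjex : ∃ j : ℕ, klF (algebraMap ℚ Qb a • cov w + algebraMap ℚ Qb (b + j * c) • w).1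
      (algebraMap ℚ Qb a • cov w + algebraMap ℚ Qb (b + j * c) • w).2 ≠ 0 := by
    set e := algebraMap ℚ Qb a • cov w + algebraMap ℚ Qb b • w with he
    set v := algebraMap ℚ Qb c • w with hv
    set P : Qb[X] := klF (C e.1 + C v.1 * X) (C e.2 + C v.2 * X) with hP
    have hP0 : P ≠ 0 := fun h => by
      have := klF_line_coeff e v
      rw [← hP, h, coeff_zero, hv, Prod.smul_fst, Prod.smul_snd, smul_eq_mul, smul_eq_mul,
        Switch.klF_smul] at this
      exact mul_ne_zero (pow_ne_zero _ ((_root_.map_ne_zero _).2 hc)) hw.klF_ne_zero this.symm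
    by_contra hall
    simp only [not_exists, not_not] at hall
    refine hP0 (eq_zero_of_infinite_isRoot _ ((Set.infinite_range_of_injective
      (Nat.cast_injective (R := Qb))).mono ?_))
    rintro _ ⟨n, rfl⟩
    have h := hall n
    show P.IsRoot (n : Qb)
    rw [IsRoot.def, hP, ← coe_evalRingHom, map_klF]
    convert h using 1
    simp only [he, hv, coe_evalRingHom, eval_add, eval_mul, eval_C, eval_X, Prod.fst_add,
      Prod.snd_add, Prod.smul_fst, Prod.smul_snd, smul_eq_mul, map_add, map_mul, map_natCast]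
    ring_nf
  obtain ⟨j, hj⟩ := hjex
  set d := algebraMap ℚ Qb a • cov w + algebraMap ℚ Qb (b + j * c) • w with hd
  have gal : ∀ σ : Qb ≃ₐ[ℚ] Qb, ∃ (g : (Qb × Qb) →ₗ[Qb] (Qb × Qb))
      (M : ZMod 5 × ZMod 5 →+ ZMod 5 × ZMod 5), Compat hζ g M ∧ (σ w.1, σ w.2) = g w ∧
      ∀ t : ℚ, (σ (w + (algebraMap ℚ Qb t) • d).1, σ (w + (algebraMap ℚ Qb t) • d).2) =
        g (w + (algebraMap ℚ Qb t) • d) := by
    intro σ
    obtain ⟨g, M, hc', hg⟩ := orbit hζ hw (hw.galois σ) hH hT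
    refine ⟨g, M, hc', hg, fun t => ?_⟩
    have hgd : (σ d.1, σ d.2) = g d := by
      rw [hd, LinearMap.map_add g, LinearMap.map_smul g, LinearMap.map_smul g, ← hc'.cov_comm, ← hg]
      have := map_cov (σ : Qb →+* Qb) w
      simp only [RingHom.coe_coe] at this
      rw [this]
      ext <;> simp [AlgEquiv.commutes]
    rw [map_add, map_smul, ← hg, ← hgd]
    ext <;> simp
  have hS : {n : ℕ | klF (w + (n : Qb) • d).1 (w + (n : Qb) • d).2 ≠ 0}.Infinite := by
    set P : Qb[X] := klF (C w.1 + C d.1 * X) (C w.2 + C d.2 * X) with hP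
    have heval : ∀ t, P.eval t = klF (w + t • d).1 (w + t • d).2 := fun t => by
      rw [hP, ← coe_evalRingHom, map_klF]
      simp [mul_comm t]
    have hP0 : P ≠ 0 := fun e => hw.klF_ne_zero (by simpa [e] using (heval 0).symm)
    refine Set.Infinite.mono ?_ ((((finite_setOfPred_isRoot hP0).preimage
      (Nat.cast_injective (R := Qb)).injOn)).infinite_compl)
    intro n hn
    simpa [IsRoot.def, heval] using hn
  have fixed : ∀ (σ : Qb ≃ₐ[ℚ] Qb), ∀ n ∈ {n : ℕ | klF (w + (n : Qb) • d).1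
      (w + (n : Qb) • d).2 ≠ 0},
      σ ((lineA w d).eval (n : Qb)) = (lineA w d).eval (n : Qb) ∧
      σ ((lineB w d).eval (n : Qb)) = (lineB w d).eval (n : Qb) := by
    intro σ n hn
    obtain ⟨g, M, hc', -, hgt⟩ := gal σ
    have hgt' := hgt n
    rw [map_natCast] at hgt'
    set w' := w + (n : Qb) • d with hw'
    simp only [eval_lineA, eval_lineB, ← hw']
    have h1 := map_cA (σ : Qb →+* Qb) w'.1 w'.2
    have h2 := map_cB (σ : Qb →+* Qb) w'.1 w'.2
    simp only [RingHom.coe_coe] at h1 h2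
    have e1 : σ w'.1 = (g w').1 := congrArg Prod.fst hgt'
    have e2 : σ w'.2 = (g w').2 := congrArg Prod.snd hgt'
    rw [h1, h2, e1, e2]
    exact compat_invariant hc' w' hn
  obtain ⟨PA, hPA⟩ := exists_rat_poly (lineA w d) hS fun σ n hn => (fixed σ n hn).1
  obtain ⟨PB, hPB⟩ := exists_rat_poly (lineB w d) hS fun σ n hn => (fixed σ n hn).2
  refine ⟨j, PA, PB, w, d, hPA, hPB, hw4, hw6, hd, hj, fun t ht => ?_⟩
  have := isElliptic_shortQ ht
  have hE' : ((shortQ (PA.eval t) (PB.eval t))⁄Qb).IsElliptic :=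
    inferInstanceAs ((shortQ (PA.eval t) (PB.eval t)).map (algebraMap ℚ Qb)).IsElliptic
  set w' := w + (algebraMap ℚ Qb t) • d with hw'def
  have hw' : Fits ((shortQ (PA.eval t) (PB.eval t))⁄Qb) w' := by
    rw [fits_shortQ, hw'def, ← eval_lineA, ← eval_lineB, ← hPA, ← hPB, eval_map_apply,
      eval_map_apply]
    exact ⟨rfl, rfl⟩
  refine ⟨(lvlEquiv hζ hw).symm.trans (lvlEquiv hζ hw'), fun σ x => ?_⟩
  obtain ⟨a', rfl⟩ := (lvlEquiv hζ hw).surjective x
  obtain ⟨g, M, hc', hg, hgt⟩ := gal σ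
  obtain ⟨c', hsm⟩ := smul_lvl hζ σ
  obtain ⟨f₁, e₁⟩ := hc'.lev _ w hw
  obtain ⟨f₂, e₂⟩ := hc'.lev _ w' hw'
  have key : ∀ (A' B' : ℚ) [((shortQ A' B')⁄Qb).IsElliptic] (v : Qb × Qb)
      (hv : Fits ((shortQ A' B')⁄Qb) v) (f : Fits ((shortQ A' B')⁄Qb) (g v)),
      (σ v.1, σ v.2) = g v → lvl f hζ = (lvl hv hζ).comp M → ∀ b',
      σ • lvlEquiv hζ hv b' = lvlEquiv hζ hv (M (twistHom c' b')) := by
    intro A' B' _ v hv f hgv ef b'
    refine Subtype.ext ?_
    show σ • lvl hv hζ b' = lvl hv hζ (M (twistHom c' b'))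
    rw [hsm A' B' v hv b', ← AddMonoidHom.comp_apply (lvl hv hζ) M, ← ef]
    congr! 2
  rw [key _ _ w hw f₁ hg e₁]
  simp only [AddEquiv.trans_apply, AddEquiv.symm_apply_apply]
  rw [key _ _ w' hw' f₂ (hgt t) e₂]

end FLTAgent.Switch3
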