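import Fermat.Agent.Switch3.Defs
import Fermat.Agent.Char.Semistable
import Fermat.Agent.SmallPrimes.FreyCofixed
import Fermat.Agent.Isogeny.Cofixed
import Fermat.Prelude.Def_FLTPrelim_ModularRep

/-!
# The Frey curve at five and at three
-/

set_option autoImplicit false

namespace FLTAgent.Switch3

open WeierstrassCurve WeierstrassCurve.Affine WeierstrassCurve.Affine.Point
open scoped WeierstrassCurve.Affine

local notation "Qbar" => AlgebraicClosure ℚ

/-- A semistable model with two independent rational points of order two is irreducible at `5`. -/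
theorem modRepIsIrreducible_five_of_two_torsion (W : WeierstrassCurve ℤ) (hΔ : W.Δ ≠ 0)
    (hW : W.IsSemistableModel)
    (h22 : ∃ S T : ((W.map (Int.castRingHom ℚ))⁄ℚ).Point,
      S + S = 0 ∧ T + T = 0 ∧ S ≠ 0 ∧ T ≠ 0 ∧ S ≠ T) :
    W.ModRepIsIrreducible 5 := by
  have : Fact (Nat.Prime 5) := ⟨Nat.prime_five⟩
  set E := W.map (Int.castRingHom ℚ) with hE
  have hell : E.IsElliptic :=
    ⟨by rw [hE, WeierstrassCurve.map_Δ]; exact (Int.cast_ne_zero.2 hΔ : (_ : ℚ) ≠ 0).isUnit⟩
  have : (E⁄ℚ).IsElliptic := inferInstanceAs (E.map (algebraMap ℚ ℚ)).IsElliptic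
  have h2 := GalChar.finrank_torsion (E := E) 5
  have hnt : Nontrivial (Submodule.torsionBy ℤ (E⁄Qbar).Point ((5 : ℕ) : ℤ)) :=
    Module.nontrivial_of_finrank_pos (R := ZMod 5) (by omega)
  refine ⟨hnt, fun N hN => ?_⟩
  by_contra hne
  rw [not_or] at hne
  obtain ⟨hbot, htop⟩ := hne
  obtain ⟨S, T, hS, hT, hS0, hT0, hST⟩ := h22
  rcases GalChar.sub_trivial_or_quot_trivial W hΔ hW (by norm_num) N hN hbot htop with h | h
  · obtain ⟨R, hR, hR0⟩ := Submodule.exists_mem_ne_zero_of_ne_bot hbot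
    have : IsGalois ℚ Qbar := SmallPrimes.isGalois_qbar
    obtain ⟨R', hR'⟩ := (Torsion.mem_range_baseChange_iff_smul_eq ℚ E
      (R : (E⁄Qbar).Point)).mpr fun σ => congrArg Subtype.val (h σ R hR)
    refine SmallPrimes.no_order_five_and_two_two (addOrderOf_eq_prime ?_ ?_ :
      addOrderOf R' = 5) hS0 hT0 hST hS hT
    · refine Affine.Point.map_injective (Algebra.ofId ℚ Qbar) ?_
      rw [map_nsmul, _root_.map_zero]
      change 5 • Affine.Point.baseChange ℚ Qbar R' = 0
      rw [hR', ← natCast_zsmul]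
      exact (Submodule.mem_torsionBy_iff _ _).mp R.2
    · rintro rfl
      exact hR0 (Subtype.ext (by rw [← hR', _root_.map_zero]; rfl))
  · obtain ⟨W', φ, hequiv, hker, R, hR⟩ := SmallPrimes.exists_map_of_cofixed
      (Isogeny.hasOddQuotients E) (by norm_num) ⟨N, hN, hbot, htop, h⟩
    obtain ⟨S', T', hS', hT', hS0', hT0', hST'⟩ :=
      SmallPrimes.exists_two_torsion_image (by decide) φ hequiv hker hS hT hS0 hT0 hST
    exact SmallPrimes.no_order_five_and_two_two hR hS0' hT0' hST' hS' hT'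

/-- **The Frey curve is irreducible at `5`, whatever its exponent.** -/
theorem frey_modRepIsIrreducible_five (P : FreyPackage) :
    P.freyCurveInt.ModRepIsIrreducible 5 := by
  refine modRepIsIrreducible_five_of_two_torsion _ (Frey.freyCurveInt_Δ_ne_zero P)
    (Frey.freyCurveInt_isSemistableModel P) ?_
  rw [Frey.freyCurveInt_map P]
  exact SmallPrimes.frey_exists_two_torsion P

/-- The reduction at `3` of a Frey curve with good reduction there. -/
def freyAtThree : WeierstrassCurve (ZMod 3) := ⟨1, 2, 0, 2, 0⟩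

theorem card_freyAtThree : freyAtThree.card = 4 := by
  classical
  have key : ∀ x y : ZMod 3, freyAtThree.toAffine.Nonsingular x y ↔
      (x, y) ∈ ({(0, 0), (1, 1), (2, 2)} : Finset (ZMod 3 × ZMod 3)) := by
    intro x y
    rw [Affine.nonsingular_iff, Affine.equation_iff]
    revert x y
    simp only [freyAtThree]
    decide
  unfold WeierstrassCurve.card
  rw [Nat.card_congr (Affine.nonsingularPointEquiv freyAtThree.toAffine)]
  have e : {xy : ZMod 3 × ZMod 3 // freyAtThree.toAffine.Nonsingular xy.1 xy.2} ≃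
      ({(0, 0), (1, 1), (2, 2)} : Finset (ZMod 3 × ZMod 3)) :=
    Equiv.subtypeEquivRight fun xy => key xy.1 xy.2
  show Nat.card (Option _) = 4
  rw [Finite.card_option, Nat.card_congr e, Nat.card_eq_fintype_card, Fintype.card_coe]
  rfl

/-- **A Frey curve good at `3` is supersingular there.** -/
theorem frey_three_dvd_apOfModel (P : FreyPackage) (h : ¬ (3 : ℤ) ∣ P.freyCurveInt.Δ) :
    (3 : ℤ) ∣ P.freyCurveInt.apOfModel 3 := by
  have h3 : ¬ (3 : ℤ) ∣ P.a * P.b * P.c := fun hd => h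
    (Int.prime_three.dvd_or_dvd (a := 256) (b := P.freyCurveInt.Δ)
      ((Frey.freyCurveInt_Δ P) ▸ dvd_pow hd (by have := P.pp.pos; omega)) |>.resolve_left
        (by norm_num))
  have hA := Frey.four_mul_a₂ P
  have hB := Frey.sixteen_mul_a₄ P
  set A : ZMod 3 := ((P.a ^ P.p : ℤ) : ZMod 3)
  set B : ZMod 3 := ((P.b ^ P.p : ℤ) : ZMod 3)
  have hne : ∀ z : ℤ, ¬ (3 : ℤ) ∣ z → ((z ^ P.p : ℤ) : ZMod 3) ≠ 0 := fun z hz e =>
    hz (Int.prime_three.dvd_of_dvd_pow ((ZMod.intCast_zmod_eq_zero_iff_dvd _ 3).mp e))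
  have hA0 : A ≠ 0 := hne _ fun hd => h3 ((hd.mul_right _).mul_right _)
  have hB0 : B ≠ 0 := hne _ fun hd => h3 ((hd.mul_left _).mul_right _)
  have hC0 : A + B ≠ 0 := by
    have := hne _ (fun hd => h3 (hd.mul_left (P.a * P.b)))
    rwa [← P.hFLT, Int.cast_add] at this
  have e2 : (P.freyCurveInt.a₂ : ZMod 3) = B - 1 - A := by
    have := congrArg (Int.cast : ℤ → ZMod 3) hA
    rw [Int.cast_mul, Int.cast_sub, Int.cast_sub, Int.cast_one,
      show ((4 : ℤ) : ZMod 3) = 1 from rfl, one_mul] at this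
    exact this
  have e4 : (P.freyCurveInt.a₄ : ZMod 3) = -A * B := by
    have := congrArg (Int.cast : ℤ → ZMod 3) hB
    rw [Int.cast_mul, Int.cast_mul, Int.cast_neg, show ((16 : ℤ) : ZMod 3) = 1 from rfl,
      one_mul] at this
    exact this
  have key : ∀ x y : ZMod 3, x ≠ 0 → y ≠ 0 → x + y ≠ 0 → y - 1 - x = 2 ∧ -x * y = 2 := by decide
  obtain ⟨k2, k4⟩ := key A B hA0 hB0 hC0
  have hred : P.freyCurveInt.reductionMod 3 = freyAtThree := by
    refine WeierstrassCurve.ext ?_ ?_ ?_ ?_ ?_ <;>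
      simp only [reductionMod, freyAtThree, map_a₁, map_a₂, map_a₃, map_a₄, map_a₆, eq_intCast]
    · rw [Frey.freyCurveInt_a₁, Int.cast_one]
    · rw [e2, k2]
    · rw [Frey.freyCurveInt_a₃, Int.cast_zero]
    · rw [e4, k4]
    · rw [Frey.freyCurveInt_a₆, Int.cast_zero]
  rw [apOfModel, hred, traceOfFrobenius, card_freyAtThree, Nat.card_zmod]
  norm_num

/-- `3`-adic valuation of the discriminant: divisible by `3` only if at least `25`. -/
theorem frey_pow_dvd_of_three_dvd (P : FreyPackage) (h : (3 : ℤ) ∣ P.freyCurveInt.Δ)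
    (h3 : 3 ∣ padicValInt 3 P.freyCurveInt.Δ) : (3 : ℤ) ^ 25 ∣ P.freyCurveInt.Δ := by
  have : Fact (Nat.Prime 3) := ⟨Nat.prime_three⟩
  have hv := Frey.padicValInt_Δ_of_ne_two P Nat.prime_three (by norm_num)
  have hpos : 1 ≤ padicValInt 3 P.freyCurveInt.Δ := by
    rcases (padicValInt_dvd_iff (p := 3) 1 P.freyCurveInt.Δ).mp (by simpa using h) with h0 | h1
    · exact absurd h0 (Frey.freyCurveInt_Δ_ne_zero P)
    · exact h1
  rw [hv] at h3 hpos
  have h3' : 3 ∣ padicValInt 3 (P.a * P.b * P.c) := by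
    rcases Nat.prime_three.dvd_mul.mp h3 with h' | h'
    · exfalso
      rcases Nat.prime_three.dvd_mul.mp h' with h'' | h''
      · omega
      · have := (Nat.prime_dvd_prime_iff_eq Nat.prime_three P.pp).mp h''
        have := P.hp5
        omega
    · exact h'
  refine (padicValInt_dvd_iff (p := 3) 25 P.freyCurveInt.Δ).mpr (Or.inr ?_)
  rw [hv]
  have hk : 3 ≤ padicValInt 3 (P.a * P.b * P.c) := Nat.le_of_dvd (by
    by_contra hk
    push Not at hk
    interval_cases padicValInt 3 (P.a * P.b * P.c)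
    simp at hpos) h3'
  have := P.hp5
  nlinarith

end FLTAgent.Switch3
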