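import Fermat.Agent.Switch.Main
import Fermat.Agent.Switch3.Forms

/-!
# A semistable member of a line near a given parameter

The line `w + t d`, `d = klF w · (η w + j klF w ^ 4 w)`; the members with `t` close to `t₀` at the
primes of the modulus are semistable, irreducible at `3` and congruent to `W` modulo `5`.
-/

set_option autoImplicit false

namespace FLTAgent.Switch3

open Switch Polynomial WeierstrassCurve

local notation "Qb" => AlgebraicClosure ℚ

theorem not_dvd_both {w d : Qb × Qb} (j : ℕ)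
    (hd : d = klF w.1 w.2 • ((hv w.1 w.2, -hu w.1 w.2) + ((j : Qb) * klF w.1 w.2 ^ 4) • w))
    {c4 c6 Δ₀ : ℤ} (hH : klH w.1 w.2 = (c4 : Qb)) (hT : klT w.1 w.2 = (c6 : Qb))
    (hΔ : c4 ^ 3 - c6 ^ 2 = 1728 * Δ₀) {t c4' c6' : ℤ}
    (hH' : klH (w + (t : Qb) • d).1 (w + (t : Qb) • d).2 = (c4' : Qb))
    (hT' : klT (w + (t : Qb) • d).1 (w + (t : Qb) • d).2 = (c6' : Qb))
    {p : ℕ} (hp : p.Prime) (hp2 : ¬ (p : ℤ) ∣ 30 * Δ₀ * c4) :
    ¬ ((p : ℤ) ∣ c4' ∧ (p : ℤ) ∣ c6') := by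
  rintro ⟨h4, h6⟩
  obtain ⟨A, hA⟩ := FLTAgent.Frobenius.exists_liesOverPrime hp
  have hres : ∀ n : ℤ, IsLocalRing.residue A (n : A) = 0 ↔ (p : ℤ) ∣ n := fun n => by
    rw [residue_eq_zero_iff_mem_nonunits]
    have : ((n : A) : Qb) = (n : Qb) := map_intCast A.subtype n
    rw [this]
    exact FLTAgent.Frobenius.intCast_mem_nonunits_iff hp hA n
  have hsmall : ∀ n : ℕ, (n : ℤ) ∣ 30 → ¬ (p : ℤ) ∣ n := fun n hn h =>
    hp2 (((h.trans hn).mul_right _).mul_right _)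
  have h2 : IsLocalRing.residue A 2 ≠ 0 := fun e =>
    hsmall 2 (by norm_num) ((hres 2).1 (by simpa using e))
  have h3 : IsLocalRing.residue A 3 ≠ 0 := fun e =>
    hsmall 3 (by norm_num) ((hres 3).1 (by simpa using e))
  have h5 : IsLocalRing.residue A 5 ≠ 0 := fun e =>
    hsmall 5 (by norm_num) ((hres 5).1 (by simpa using e))
  obtain ⟨hu', hv'⟩ := mem_of_klH_klT_mem A h2 h3 h5 (u := w.1) (v := w.2)
    (by rw [hH]; exact intCast_mem A c4) (by rw [hT]; exact intCast_mem A c6)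
  set u : A := ⟨w.1, hu'⟩
  set v : A := ⟨w.2, hv'⟩
  have hsu : A.subtype u = w.1 := rfl
  have hsv : A.subtype v = w.2 := rfl
  set a : A := klF u v * (hv u v + (j : A) * klF u v ^ 4 * u) with ha'
  set b : A := klF u v * (-hu u v + (j : A) * klF u v ^ 4 * v) with hb'
  have ha : A.subtype a = d.1 := by
    simp only [ha', hd, map_mul, map_add, map_pow, map_natCast, map_klF, map_hv, hsu, hsv,
      Prod.smul_fst, Prod.fst_add, smul_eq_mul]
  have hb : A.subtype b = d.2 := by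
    simp only [hb', hd, map_mul, map_add, map_neg, map_pow, map_natCast, map_klF, map_hu, hsu, hsv,
      Prod.smul_snd, Prod.snd_add, smul_eq_mul]
  have hdet' : u * b - v * a = -(klF u v * klH u v) := by
    rw [ha', hb']
    linear_combination -(klF u v) * euler_klH u v
  have hF5 : klF u v ^ 5 = (Δ₀ : A) := by
    refine A.subtype_injective ?_
    rw [map_pow, map_klF, map_intCast, hsu, hsv]
    have e := klein_syzygy w.1 w.2
    rw [hH, hT] at e
    have h' := congrArg (fun z : ℤ => (z : Qb)) hΔ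
    push_cast at h'
    linear_combination (1 / 1728 : Qb) * (h' - e)
  have hH0 : klH u v = (c4 : A) := A.subtype_injective (by rw [map_klH, map_intCast, hsu, hsv, hH])
  clear_value a b
  set ρ := IsLocalRing.residue A
  have hne : ρ u * ρ b - ρ v * ρ a ≠ 0 := by
    rw [← map_mul, ← map_mul, ← map_sub, hdet', map_neg, neg_ne_zero, map_mul, mul_ne_zero_iff]
    refine ⟨fun e => hp2 ?_, fun e => hp2 ?_⟩
    · have : ρ (Δ₀ : A) = 0 := by rw [← hF5, map_pow, e, zero_pow (by norm_num)]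
      exact (((hres Δ₀).1 this).mul_left 30).mul_right _
    · rw [hH0] at e
      exact ((hres c4).1 e).mul_left _
  have hH'' : ρ (klH (u + (t : A) * a) (v + (t : A) * b)) = 0 := by
    rw [show klH (u + (t : A) * a) (v + (t : A) * b) = (c4' : A) by
      refine A.subtype_injective ?_
      rw [map_klH, map_add, map_add, map_mul, map_mul, map_intCast, map_intCast, hsu, hsv, ha, hb,
        ← hH']
      simp, hres]
    exact h4
  have hT'' : ρ (klT (u + (t : A) * a) (v + (t : A) * b)) = 0 := by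
    rw [show klT (u + (t : A) * a) (v + (t : A) * b) = (c6' : A) by
      refine A.subtype_injective ?_
      rw [map_klT, map_add, map_add, map_mul, map_mul, map_intCast, map_intCast, hsu, hsv, ha, hb,
        ← hT']
      simp, hres]
    exact h6
  simp only [map_klH, map_klT, map_add, map_mul] at hH'' hT''
  exact no_common_zero_of_det (by rw [map_ofNat] at h2; exact h2) (by rw [map_ofNat] at h3; exact h3)
    (by rw [map_ofNat] at h5; exact h5) hne (ρ (t : A)) hH'' hT''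

theorem lineA_comp {w d : Qb × Qb} (s : Qb) :
    (lineA w d).comp (X + C s) = lineA (w + s • d) d := by
  refine Polynomial.funext fun x => ?_
  rw [eval_comp, eval_add, eval_X, eval_C, eval_lineA, eval_lineA, add_smul]
  congr 1 <;> simp only [Prod.fst_add, Prod.snd_add] <;> ring

theorem lineB_comp {w d : Qb × Qb} (s : Qb) :
    (lineB w d).comp (X + C s) = lineB (w + s • d) d := by
  refine Polynomial.funext fun x => ?_
  rw [eval_comp, eval_add, eval_X, eval_C, eval_lineB, eval_lineB, add_smul]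
  congr 1 <;> simp only [Prod.fst_add, Prod.snd_add] <;> ring

/-- **A member near `t₀`.** -/
theorem exists_member (W : WeierstrassCurve ℤ) (hΔ : W.Δ ≠ 0) (hW : W.IsSemistableModel)
    {PA PB : ℚ[X]} {w d : Qb × Qb} (hPA : PA.map (algebraMap ℚ Qb) = lineA w d)
    (hPB : PB.map (algebraMap ℚ Qb) = lineB w d)
    (hH : klH w.1 w.2 = (W.c₄ : Qb)) (hT : klT w.1 w.2 = (W.c₆ : Qb)) (j : ℕ)
    (hd : d = klF w.1 w.2 • ((hv w.1 w.2, -hu w.1 w.2) + ((j : Qb) * klF w.1 w.2 ^ 4) • w))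
    (hdne : klF d.1 d.2 ≠ 0)
    (hfam : ∀ t : ℚ, 4 * PA.eval t ^ 3 + 27 * PB.eval t ^ 2 ≠ 0 →
      SameFive (shortQ (-27 * (W.c₄ : ℚ)) (-54 * (W.c₆ : ℚ))) (shortQ (PA.eval t) (PB.eval t)))
    {M z4 z6 t₀ : ℤ} (hM0 : M ≠ 0) (hz4 : PA.eval (t₀ : ℚ) = -27 * (z4 : ℚ))
    (hz6 : PB.eval (t₀ : ℚ) = -54 * (z6 : ℚ)) (hz0 : z4 ≠ 0)
    (h4 : 864 * 48 * M ∣ z4 - W.c₄) (h6 : 864 * 48 * M ∣ z6 - W.c₆)
    (hMp : ∀ p : ℕ, p.Prime → (p : ℤ) ∣ 30 * W.Δ * W.c₄ * (|W.Δ| + 1) → (p : ℤ) ∣ 6 * M)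
    {G : ℤ} (hG : G ≠ 0) :
    ∃ (W' : WeierstrassCurve ℤ) (t : ℤ), G ∣ t - t₀ ∧
      klH (w + (t : Qb) • d).1 (w + (t : Qb) • d).2 = (W'.c₄ : Qb) ∧
      klT (w + (t : Qb) • d).1 (w + (t : Qb) • d).2 = (W'.c₆ : Qb) ∧
      864 * 48 * M ∣ W'.c₄ - W.c₄ ∧ 864 * 48 * M ∣ W'.c₆ - W.c₆ ∧
      (∀ p : ℕ, (p : ℤ) ∣ 6 * M →
        W'.map (Int.castRingHom (ZMod p)) = W.map (Int.castRingHom (ZMod p))) ∧
      W'.Δ ≠ 0 ∧ W'.IsSemistableModel ∧ W'.ModRepIsIrreducible 3 ∧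
      ∀ ℓ : ℕ, ℓ.Prime → W.IsGoodPrimeFor ℓ → W'.IsGoodPrimeFor ℓ → ℓ ≠ 5 →
        (5 : ℤ) ∣ (W'.apOfModel ℓ - W.apOfModel ℓ) := by
  set w' : Qb × Qb := w + (t₀ : Qb) • d with hw'
  set QA : ℚ[X] := PA.comp (X + C (t₀ : ℚ)) with hQA'
  set QB : ℚ[X] := PB.comp (X + C (t₀ : ℚ)) with hQB'
  have hQA : QA.map (algebraMap ℚ Qb) = lineA w' d := by
    rw [hQA', Polynomial.map_comp, hPA, Polynomial.map_add, map_X, map_C, map_intCast, lineA_comp]
  have hQB : QB.map (algebraMap ℚ Qb) = lineB w' d := by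
    rw [hQB', Polynomial.map_comp, hPB, Polynomial.map_add, map_X, map_C, map_intCast, lineB_comp]
  obtain ⟨D₁, hD₁, h₁⟩ := exists_den (C (-1 / 27 : ℚ) * QA) z4 (by simp [hQA', hz4]; ring)
  obtain ⟨D₂, hD₂, h₂⟩ := exists_den (C (-1 / 54 : ℚ) * QB) z6 (by simp [hQB', hz6]; ring)
  set N := (D₁ * D₂ * (864 * 48 * M) * G).natAbs with hN
  have hN0 : (N : ℤ) ≠ 0 := by
    rw [hN, Int.natCast_ne_zero, Int.natAbs_ne_zero]
    simp [hD₁, hD₂, hM0, hG]
  have d1 : D₁ * (864 * 48 * M) ∣ (N : ℤ) :=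
    ((mul_dvd_mul_right (dvd_mul_right D₁ D₂) _).mul_right G).trans Int.dvd_natAbs_self
  have d2 : D₂ * (864 * 48 * M) ∣ (N : ℤ) :=
    ((mul_dvd_mul_right (dvd_mul_left D₂ D₁) _).mul_right G).trans Int.dvd_natAbs_self
  have dG : G ∣ (N : ℤ) := (dvd_mul_left G _).trans Int.dvd_natAbs_self
  obtain ⟨ZH, eH, cH⟩ := h₁ _ _ d1
  obtain ⟨ZT, eT, cT⟩ := h₂ _ _ d2
  push_cast at eH eT
  have hdet : w'.1 * d.2 - w'.2 * d.1 = -(klF w.1 w.2 * klH w.1 w.2) := by
    simp only [hw', hd, Prod.fst_add, Prod.snd_add, Prod.smul_fst, Prod.smul_snd, smul_eq_mul]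
    linear_combination -(klF w.1 w.2) * euler_klH w.1 w.2
  have hc4 : (W.c₄ : Qb) ≠ 0 := Int.cast_ne_zero.2 (c₄_ne_zero W hΔ hW)
  have hrel₀ : (W.c₄ : ℤ) ^ 3 - W.c₆ ^ 2 = 1728 * W.Δ := W.c_relation.symm
  have hF0 : klF w.1 w.2 ≠ 0 := by
    intro e
    have h := klein_syzygy w.1 w.2
    rw [hH, hT, e] at h
    have h' := congrArg (Int.cast : ℤ → Qb) hrel₀
    push_cast at h'
    rw [h'] at h
    exact hΔ ((Int.cast_eq_zero (α := Qb)).1 (by linear_combination (1 / 1728 : Qb) * h))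
  have hdet0 : w'.1 * d.2 - w'.2 * d.1 ≠ 0 := by
    rw [hdet, hH]; exact neg_ne_zero.2 (mul_ne_zero hF0 hc4)
  have hw0 : cA w'.1 w'.2 ≠ 0 := by
    rw [hw', ← eval_lineA, ← hPA, ← map_intCast (algebraMap ℚ Qb), eval_map_apply, hz4]
    exact (_root_.map_ne_zero _).2 (mul_ne_zero (by norm_num) (Int.cast_ne_zero.2 hz0))
  obtain ⟨m, hm⟩ := exists_no_root hdet0 hw0 hdne hQA hQB hN0 eH eT
  set c4 := ZH.eval (m : ℤ) with hc4'
  set c6 := ZT.eval (m : ℤ) with hc6'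
  have hc4d : 864 * 48 * M ∣ c4 - W.c₄ := by
    simpa using dvd_add (cH m) h4
  have hc6d : 864 * 48 * M ∣ c6 - W.c₆ := by
    simpa using dvd_add (cT m) h6
  obtain ⟨W', e4, e6, hred⟩ := exists_model W hc4d hc6d
  set t : ℤ := t₀ + (N : ℤ) * m with ht
  have hPAt : PA.eval (t : ℚ) = -27 * (c4 : ℚ) := by
    have e := eval_intCast_map (Int.castRingHom ℚ) ZH (m : ℤ)
    rw [eH, hQA', eval_comp, eval_mul, eval_comp, eval_mul, eval_C, eval_C, eval_X, eval_add,
      eval_X, eval_C, eq_intCast] at e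
    simp only [Int.cast_id, Int.cast_natCast] at e
    rw [← hc4', add_comm] at e
    rw [ht]
    push_cast at e ⊢
    linear_combination (-27 : ℚ) * e
  have hPBt : PB.eval (t : ℚ) = -54 * (c6 : ℚ) := by
    have e := eval_intCast_map (Int.castRingHom ℚ) ZT (m : ℤ)
    rw [eT, hQB', eval_comp, eval_mul, eval_comp, eval_mul, eval_C, eval_C, eval_X, eval_add,
      eval_X, eval_C, eq_intCast] at e
    simp only [Int.cast_id, Int.cast_natCast] at e
    rw [← hc6', add_comm] at e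
    rw [ht]
    push_cast at e ⊢
    linear_combination (-54 : ℚ) * e
  have hH' : klH (w + (t : Qb) • d).1 (w + (t : Qb) • d).2 = (c4 : Qb) := by
    have e := eq_intCast_of_eval hPA (map_intCast _ t) hPAt
    rw [eval_lineA, map_mul, map_neg, map_ofNat, map_intCast] at e
    simp only [cA] at e
    linear_combination (-1 / 27 : Qb) * e
  have hT' : klT (w + (t : Qb) • d).1 (w + (t : Qb) • d).2 = (c6 : Qb) := by
    have e := eq_intCast_of_eval hPB (map_intCast _ t) hPBt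
    rw [eval_lineB, map_mul, map_neg, map_ofNat, map_intCast] at e
    simp only [cB] at e
    linear_combination (-1 / 54 : Qb) * e
  have hgood : ∀ p : ℕ, p.Prime → (p : ℤ) ∣ W'.Δ → (p : ℤ) ∣ W'.c₄ → False := by
    intro p hp hΔ' hc
    by_cases h : (p : ℤ) ∣ 6 * M
    · have e := hred p h
      refine hW p hp ?_ ?_
      · rw [← ZMod.intCast_zmod_eq_zero_iff_dvd] at hΔ' ⊢
        have := congrArg WeierstrassCurve.Δ e
        simp only [map_Δ, eq_intCast] at this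
        rw [← this, hΔ']
      · rw [← ZMod.intCast_zmod_eq_zero_iff_dvd] at hc ⊢
        have := congrArg WeierstrassCurve.c₄ e
        simp only [map_c₄, eq_intCast] at this
        rw [← this, hc]
    · refine not_dvd_both j hd hH hT hrel₀ hH' hT' hp
        (fun h' => h (hMp p hp (h'.mul_right _))) ⟨e4 ▸ hc, e6 ▸ ?_⟩
      refine (Nat.prime_iff_prime_int.1 hp).dvd_of_dvd_pow (n := 2) ?_
      rw [show W'.c₆ ^ 2 = W'.c₄ ^ 3 - 1728 * W'.Δ by linear_combination W'.c_relation]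
      exact dvd_sub (dvd_pow hc (by norm_num)) (hΔ'.mul_left _)
  have hΔ' : W'.Δ ≠ 0 := by
    intro h0
    obtain ⟨p, hp, hpd⟩ := Nat.exists_prime_and_dvd (n := W.Δ.natAbs + 1)
      (by have := Int.natAbs_pos.2 hΔ; omega)
    have hpd' : (p : ℤ) ∣ |W.Δ| + 1 := by
      rw [Int.abs_eq_natAbs]; exact_mod_cast hpd
    have e := congrArg WeierstrassCurve.Δ (hred p (hMp p hp (hpd'.mul_left _)))
    simp only [map_Δ, eq_intCast, h0, Int.cast_zero] at e
    have h1 : (p : ℤ) ∣ |W.Δ| := (dvd_abs _ _).2 ((ZMod.intCast_zmod_eq_zero_iff_dvd _ _).1 e.symm)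
    have h2 : (p : ℤ) ∣ 1 := (dvd_add_right h1).1 hpd'
    exact hp.one_lt.ne' (by exact_mod_cast Int.eq_one_of_dvd_one (by positivity) h2)
  refine ⟨W', t, by rw [ht, add_sub_cancel_left]; exact dG.mul_right _, e4 ▸ hH', e6 ▸ hT',
    e4 ▸ hc4d, e6 ▸ hc6d, hred, hΔ', fun p hp h1 h2 => hgood p hp h1 h2, ?_,
    fun l hl h1 h2 h3 => dvd_apOfModel_sub ?_ hl h1 h2 h3⟩
  · refine irreducible_three_of_no_root W' hΔ' fun x => ?_
    have := psiThree_ne_zero hm x
    rw [e4, e6]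
    push_cast at this
    exact this
  · have hrel' := congrArg (Int.cast : ℤ → ℚ) W'.c_relation
    push_cast at hrel'
    have h0 : (W'.Δ : ℚ) ≠ 0 := Int.cast_ne_zero.2 hΔ'
    have hs := hfam (t : ℚ) (by
      rw [hPAt, hPBt, ← e4, ← e6]
      intro e
      exact h0 (by linear_combination (1 / 1728 : ℚ) * hrel' - (1 / (78732 * 1728) : ℚ) * e))
    rw [hPAt, hPBt, ← e4, ← e6] at hs
    exact (sameFive_short W).trans (hs.trans (sameFive_short W').symm)

end FLTAgent.Switch3
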