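import Fermat.Agent.Switch3.Defs
import Fermat.Agent.Switch3.Family
import Fermat.Agent.Switch3.Member
import Fermat.Agent.Switch3.AtThree

/-!
# The 3-5 switch keeping or creating non-splitness at three
-/

set_option autoImplicit false

namespace FLTAgent.Switch3

open Switch Polynomial WeierstrassCurve

local notation "Qb" => AlgebraicClosure ℚ

theorem exists_eq_three_pow_mul {n : ℤ} (hn : n ≠ 0) :
    ∃ (k : ℕ) (n' : ℤ), ¬ (3 : ℤ) ∣ n' ∧ n = 3 ^ k * n' :=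
  WfDvdMonoid.max_power_factor hn Int.prime_three.irreducible

/-- Clearing denominators at every integer argument. -/
theorem exists_den_at (P : ℚ[X]) (z : ℤ) (hz : P.eval 0 = z) :
    ∃ D : ℤ, D ≠ 0 ∧ ∀ t : ℤ, ∃ n : ℤ, (D : ℚ) * (P.eval (t : ℚ) - z) = ((t * n : ℤ) : ℚ) := by
  obtain ⟨Q, hQ⟩ := (X_dvd_iff (f := P - C (z : ℚ))).2 (by
    rw [coeff_zero_eq_eval_zero, eval_sub, eval_C, hz, sub_self])
  obtain ⟨D, hD, hD'⟩ := IsLocalization.integerNormalization_spec (nonZeroDivisors ℤ) Q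
  refine ⟨D, nonZeroDivisors.ne_zero hD, fun t =>
    ⟨(IsLocalization.integerNormalization (nonZeroDivisors ℤ) Q).eval t, ?_⟩⟩
  set Q' := IsLocalization.integerNormalization (nonZeroDivisors ℤ) Q
  have hQ' : Q'.map (Int.castRingHom ℚ) = C (D : ℚ) * Q := by
    rw [← algebraMap_int_eq, hD']
    ext n
    simp
  have h1 : P.eval (t : ℚ) - z = (t : ℚ) * Q.eval (t : ℚ) := by
    have := congrArg (eval (t : ℚ)) hQ
    simpa using this
  have h2 : (D : ℚ) * Q.eval (t : ℚ) = ((Q'.eval t : ℤ) : ℚ) := by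
    have := congrArg (eval (t : ℚ)) hQ'
    rw [eval_intCast_map, eval_mul, eval_C] at this
    simpa using this.symm
  rw [h1, Int.cast_mul, ← h2]
  ring

/-- An integral value near `z` at a parameter divisible by the prime-to-three denominators. -/
theorem exists_eval_eq {P : ℚ[X]} {z D D' L t n : ℤ} {i : ℕ} {α : Qb} (hD : D = 3 ^ i * D')
    (hD' : D' ≠ 0) (hn : (D : ℚ) * (P.eval (t : ℚ) - z) = ((t * n : ℤ) : ℚ))
    (ht : D' * (2 ^ 9 * L) ∣ t) (hL : ¬ (3 : ℤ) ∣ L)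
    (hα : algebraMap ℚ Qb (P.eval (t : ℚ) - z) = α)
    (hloc : ∀ (i : ℕ) (y : ℤ), (y : Qb) = 3 ^ i * α → (3 : ℤ) ^ (i + 5) ∣ y) :
    ∃ z' : ℤ, P.eval (t : ℚ) = z' ∧ 3 ^ 5 * (2 ^ 9 * L) ∣ z' - z := by
  obtain ⟨e, rfl⟩ := ht
  set y := 2 ^ 9 * L * (e * n) with hy
  have hy' : (y : ℚ) = 3 ^ i * (P.eval (((D' * (2 ^ 9 * L) * e : ℤ)) : ℚ) - z) := by
    rw [hD] at hn
    push_cast at hn
    refine mul_left_cancel₀ (Int.cast_ne_zero.2 hD' : (D' : ℚ) ≠ 0) ?_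
    rw [hy]
    push_cast
    linear_combination -hn
  have h3 : (3 : ℤ) ^ (i + 5) ∣ y := hloc i y (by
    rw [← hα, ← map_intCast (algebraMap ℚ Qb) y, hy', map_mul, map_pow, map_ofNat])
  have hcop : IsCoprime ((3 : ℤ) ^ (i + 5)) (2 ^ 9 * L) :=
    IsCoprime.pow_left (Int.prime_three.coprime_iff_not_dvd.2 fun h =>
      (Int.prime_three.dvd_or_dvd h).elim (by norm_num) hL)
  obtain ⟨k, hk⟩ := hcop.mul_dvd h3 (dvd_mul_right _ _)
  refine ⟨z + 3 ^ 5 * (2 ^ 9 * L) * k, ?_, by rw [add_sub_cancel_left]; exact dvd_mul_right _ _⟩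
  rw [hk] at hy'
  push_cast at hy' ⊢
  have h3' : ((3 : ℚ) ^ i) ≠ 0 := by positivity
  refine mul_left_cancel₀ h3' ?_
  rw [pow_add] at hy'
  linear_combination -hy'

theorem padicValInt_eq_of_dvd_sub {a b M : ℤ} (hb : b ≠ 0) (hM : (3 : ℤ) * b ∣ M) (h : M ∣ a - b) :
    padicValInt 3 a = padicValInt 3 b := by
  have : Fact (Nat.Prime 3) := ⟨Nat.prime_three⟩
  obtain ⟨q, hq⟩ := hM.trans h
  have ha : a = b * (3 * q + 1) := by linear_combination hq
  have h1 : ¬ (3 : ℤ) ∣ 3 * q + 1 := by omega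
  rw [ha, padicValInt.mul hb (show 3 * q + 1 ≠ 0 by omega),
    padicValInt.eq_zero_of_not_dvd (z := 3 * q + 1) (by exact_mod_cast h1), add_zero]

theorem disc_eq {c4 c6 c4' c6' Δ Δ' M : ℤ} (h : c4 ^ 3 - c6 ^ 2 = 1728 * Δ)
    (h' : c4' ^ 3 - c6' ^ 2 = 1728 * Δ') (h4 : 864 * 48 * M ∣ c4' - c4)
    (h6 : 864 * 48 * M ∣ c6' - c6) : 24 * M ∣ Δ' - Δ := by
  have h1 : (1728 : ℤ) * (24 * M) ∣ 1728 * (Δ' - Δ) := by
    rw [show (1728 : ℤ) * (24 * M) = 864 * 48 * M by ring,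
      show 1728 * (Δ' - Δ) = (c4' - c4) * (c4' ^ 2 + c4' * c4 + c4 ^ 2) - (c6' - c6) * (c6' + c6) by
        linear_combination h - h']
    exact dvd_sub (h4.mul_right _) (h6.mul_right _)
  exact (mul_dvd_mul_iff_left (by norm_num : (1728 : ℤ) ≠ 0)).1 h1

/-- **The switch with control at `3`.** From a semistable curve which is good supersingular at `3`,
or multiplicative with `v₃(Δ)` either prime to `3` or at least `25`, a semistable curve with the
same `5`-torsion, irreducible and non-split at `3`. -/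
theorem exists_switch_nonsplit (W : WeierstrassCurve ℤ) (hΔ : W.Δ ≠ 0) (hW : W.IsSemistableModel)
    (h3 : NonsplitAtThree W ∨ (3 : ℤ) ^ 25 ∣ W.Δ) :
    ∃ W' : WeierstrassCurve ℤ, W'.Δ ≠ 0 ∧ W'.IsSemistableModel ∧ W'.ModRepIsIrreducible 3 ∧
      NonsplitAtThree W' ∧
      ∀ ℓ : ℕ, ℓ.Prime → W.IsGoodPrimeFor ℓ → W'.IsGoodPrimeFor ℓ → ℓ ≠ 5 →
        (5 : ℤ) ∣ (W'.apOfModel ℓ - W.apOfModel ℓ) := by
  have : Fact (Nat.Prime 3) := ⟨Nat.prime_three⟩
  have hc4 := c₄_ne_zero W hΔ hW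
  have hc6 := c₆_ne_zero W hΔ hW
  have hrel := congrArg (Int.cast : ℤ → ℚ) W.c_relation
  push_cast at hrel
  have hdisc : 4 * (-27 * (W.c₄ : ℚ)) ^ 3 + 27 * (-54 * (W.c₆ : ℚ)) ^ 2 ≠ 0 := by
    intro e
    have h0 : (W.Δ : ℚ) ≠ 0 := Int.cast_ne_zero.2 hΔ
    exact h0 (by linear_combination (1 / 1728 : ℚ) * hrel - (1 / (78732 * 1728) : ℚ) * e)
  obtain ⟨j, PA, PB, w, d, hPA, hPB, hw4, hw6, hd, hdne, hfam⟩ :=
    exists_family (-27 * (W.c₄ : ℚ)) (-54 * (W.c₆ : ℚ)) ((W.c₄ : ℚ) / 12) (-(W.c₆ : ℚ) / 12)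
      (W.Δ : ℚ) (mul_ne_zero (by norm_num) (Int.cast_ne_zero.2 hc4))
      (mul_ne_zero (by norm_num) (Int.cast_ne_zero.2 hc6)) hdisc (Int.cast_ne_zero.2 hΔ)
  have hH : klH w.1 w.2 = (W.c₄ : Qb) := by
    simp only [cA, map_mul, map_neg, map_ofNat, map_intCast] at hw4
    linear_combination (-1 / 27 : Qb) * hw4
  have hT : klT w.1 w.2 = (W.c₆ : Qb) := by
    simp only [cB, map_mul, map_neg, map_ofNat, map_intCast] at hw6
    linear_combination (-1 / 54 : Qb) * hw6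
  have hF : klF w.1 w.2 ^ 5 = (W.Δ : Qb) := by
    have e := klein_syzygy w.1 w.2
    rw [hH, hT] at e
    have h' := congrArg (Int.cast : ℤ → Qb) W.c_relation
    push_cast at h'
    linear_combination (-1 / 1728 : Qb) * (h' + e)
  have hd' : d = klF w.1 w.2 •
      ((hv w.1 w.2, -hu w.1 w.2) + ((j : Qb) * klF w.1 w.2 ^ 4) • w) := by
    rw [hd]
    simp only [map_add, map_mul, map_div₀, map_neg, map_intCast, map_natCast, map_ofNat, cov,
      ← hH, ← hT, ← hF]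
    refine Prod.ext ?_ ?_ <;> simp only [Prod.fst_add, Prod.snd_add, Prod.smul_fst, Prod.smul_snd,
      smul_eq_mul]
    · linear_combination (1 / 12 : Qb) * covariant_fst w.1 w.2
    · linear_combination (1 / 12 : Qb) * covariant_snd w.1 w.2
  have hA0 : PA.eval 0 = -27 * (W.c₄ : ℚ) := by
    refine (algebraMap ℚ Qb).injective ?_
    rw [← eval_map_apply, hPA, map_zero, eval_lineA, ← hw4]; simp
  have hB0 : PB.eval 0 = -54 * (W.c₆ : ℚ) := by
    refine (algebraMap ℚ Qb).injective ?_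
    rw [← eval_map_apply, hPB, map_zero, eval_lineB, ← hw6]; simp
  set L := 30 * W.Δ * W.c₄ * (|W.Δ| + 1) with hL
  have hL0 : L ≠ 0 := by
    have h1 : |W.Δ| + 1 ≠ 0 := by positivity
    rw [hL]; simp [hΔ, hc4, h1]
  by_cases hns : NonsplitAtThree W
  · -- keep the behaviour at `3`
    obtain ⟨W', t, -, -, -, h4, h6, hred, hΔ', hss, hirr, hcong⟩ :=
      exists_member W hΔ hW hPA hPB hH hT j hd' hdne hfam (M := L) (z4 := W.c₄) (z6 := W.c₆)
        (t₀ := 0) hL0 (by simpa using hA0) (by simpa using hB0) hc4 (by simp) (by simp)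
        (fun p _ h => h.mul_left 6) one_ne_zero
    refine ⟨W', hΔ', hss, hirr, ?_, hcong⟩
    rcases hns with ⟨hgood, ha⟩ | ⟨hbad, hv⟩
    · exact nonsplitAtThree_of_map_eq (hred 3 (dvd_mul_of_dvd_left (by norm_num) _)) hgood ha
    · have hdis : 24 * L ∣ W'.Δ - W.Δ :=
        disc_eq W.c_relation.symm W'.c_relation.symm h4 h6
      have hval : padicValInt 3 W'.Δ = padicValInt 3 W.Δ :=
        padicValInt_eq_of_dvd_sub hΔ ⟨8 * (30 * W.c₄ * (|W.Δ| + 1)), by rw [hL]; ring⟩ hdis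
      refine Or.inr ⟨?_, by rwa [hval]⟩
      have h3L : (3 : ℤ) ∣ 24 * L := ⟨8 * L, by ring⟩
      have := dvd_add (h3L.trans hdis) hbad
      rwa [sub_add_cancel] at this
  · -- move towards the cusp nearest at `3`
    have h25 := h3.resolve_left hns
    have h3Δ : (3 : ℤ) ∣ W.Δ := (dvd_pow_self (3 : ℤ) (by norm_num : (25 : ℕ) ≠ 0)).trans h25
    have h3v : 3 ∣ padicValInt 3 W.Δ := by
      by_contra h
      exact hns (Or.inr ⟨h3Δ, h⟩)
    have h3c4 : ¬ (3 : ℤ) ∣ W.c₄ := hW 3 Nat.prime_three h3Δ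
    have h3c6 : ¬ (3 : ℤ) ∣ W.c₆ := fun h => h3c4 (Int.prime_three.dvd_of_dvd_pow (n := 3) (by
      rw [show W.c₄ ^ 3 = 1728 * W.Δ + W.c₆ ^ 2 by linear_combination -W.c_relation]
      exact dvd_add (h3Δ.mul_left _) (dvd_pow h two_ne_zero)))
    obtain ⟨A, hA⟩ := FLTAgent.Frobenius.exists_liesOverPrime Nat.prime_three
    obtain ⟨kL, L', hL'3, hLe⟩ := exists_eq_three_pow_mul hL0
    obtain ⟨D₁, hD₁, hn₁⟩ := exists_den_at (C (-1 / 27 : ℚ) * PA) W.c₄ (by simp [hA0]; ring)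
    obtain ⟨D₂, hD₂, hn₂⟩ := exists_den_at (C (-1 / 54 : ℚ) * PB) W.c₆ (by simp [hB0]; ring)
    obtain ⟨i₁, E₁, hE₁, hDe₁⟩ := exists_eq_three_pow_mul hD₁
    obtain ⟨i₂, E₂, hE₂, hDe₂⟩ := exists_eq_three_pow_mul hD₂
    set K := E₁ * E₂ * (2 ^ 9 * L') with hK
    have hK3 : ¬ (3 : ℤ) ∣ W.c₆ * K := by
      rw [hK]
      intro h
      rcases Int.prime_three.dvd_or_dvd h with h | h
      · exact h3c6 h
      rcases Int.prime_three.dvd_or_dvd h with h | h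
      · rcases Int.prime_three.dvd_or_dvd h with h | h
        · exact hE₁ h
        · exact hE₂ h
      · rcases Int.prime_three.dvd_or_dvd h with h | h
        · norm_num at h
        · exact hL'3 h
    obtain ⟨x, y, hxy⟩ : IsCoprime (W.c₆ * K) ((3 : ℤ) ^ 2) :=
      ((Int.prime_three.coprime_iff_not_dvd.2 hK3).symm).pow_right
    set t₀ := K * (-2 * x) with ht₀
    have ht₀9 : (9 : ℤ) ∣ 1 - W.c₆ * t₀ - 3 := ⟨-2 * y, by rw [ht₀]; linear_combination (2 : ℤ) * hxy⟩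
    obtain ⟨hlocH, hlocT, -⟩ := line_at_three A hA hH hT hF h25 hΔ j hd' t₀
    obtain ⟨n₁, hn₁'⟩ := hn₁ t₀
    obtain ⟨n₂, hn₂'⟩ := hn₂ t₀
    have hαH : algebraMap ℚ Qb ((C (-1 / 27 : ℚ) * PA).eval (t₀ : ℚ) - W.c₄) =
        klH (w + (t₀ : Qb) • d).1 (w + (t₀ : Qb) • d).2 - (W.c₄ : Qb) := by
      rw [eval_mul, eval_C, map_sub, map_mul, map_intCast, ← eval_map_apply, hPA, eval_lineA,
        map_intCast, cA]
      simp only [map_div₀, map_neg, map_one, map_ofNat]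
      ring
    have hαT : algebraMap ℚ Qb ((C (-1 / 54 : ℚ) * PB).eval (t₀ : ℚ) - W.c₆) =
        klT (w + (t₀ : Qb) • d).1 (w + (t₀ : Qb) • d).2 - (W.c₆ : Qb) := by
      rw [eval_mul, eval_C, map_sub, map_mul, map_intCast, ← eval_map_apply, hPB, eval_lineB,
        map_intCast, cB]
      simp only [map_div₀, map_neg, map_one, map_ofNat]
      ring
    obtain ⟨z4, hz4, hd4⟩ := exists_eval_eq hDe₁ (fun e => hE₁ (e ▸ dvd_zero _)) hn₁'
      ⟨E₂ * (-2 * x), by rw [ht₀, hK]; ring⟩ hL'3 hαH hlocH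
    obtain ⟨z6, hz6, hd6⟩ := exists_eval_eq hDe₂ (fun e => hE₂ (e ▸ dvd_zero _)) hn₂'
      ⟨E₁ * (-2 * x), by rw [ht₀, hK]; ring⟩ hL'3 hαT hlocT
    rw [eval_mul, eval_C] at hz4 hz6
    have e5 : (3 : ℤ) ^ 5 * (2 ^ 9 * L') = 864 * 48 * (3 * L') := by ring
    rw [e5] at hd4 hd6
    have hz0 : z4 ≠ 0 := fun e => h3c4 (by
      have h : (3 : ℤ) ∣ z4 - W.c₄ := (Dvd.intro_left (864 * 48 * L') (by ring)).trans hd4
      rw [e, zero_sub, dvd_neg] at h
      exact h)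
    have hL'0 : L' ≠ 0 := fun e => hL'3 (e ▸ dvd_zero _)
    obtain ⟨W', t, ht, hH', hT', h4, -, hred, hΔ', hss, hirr, hcong⟩ :=
      exists_member W hΔ hW hPA hPB hH hT j hd' hdne hfam (M := 3 * L') (z4 := z4) (z6 := z6)
        (t₀ := t₀) (mul_ne_zero (by norm_num) hL'0) (by linear_combination (-27 : ℚ) * hz4)
        (by linear_combination (-54 : ℚ) * hz6) hz0 hd4 hd6
        (fun p hp h => by
          rw [← hL, hLe] at h
          rcases (Nat.prime_iff_prime_int.1 hp).dvd_or_dvd h with h | h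
          · exact ((Nat.prime_iff_prime_int.1 hp).dvd_of_dvd_pow h).trans ⟨6 * L', by ring⟩
          · exact h.trans ⟨18, by ring⟩)
        (by norm_num : (9 : ℤ) ≠ 0)
    refine ⟨W', hΔ', hss, hirr, Or.inr ⟨?_, ?_⟩, hcong⟩
    · have e := congrArg WeierstrassCurve.Δ (hred 3 (dvd_mul_of_dvd_left (by norm_num) _))
      simp only [map_Δ, eq_intCast] at e
      exact (ZMod.intCast_zmod_eq_zero_iff_dvd W'.Δ 3).1
        (e.trans ((ZMod.intCast_zmod_eq_zero_iff_dvd W.Δ 3).2 h3Δ))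
    · obtain ⟨-, -, hdisc'⟩ := line_at_three A hA hH hT hF h25 hΔ j hd' t
      have ht9 : (9 : ℤ) ∣ 1 - W.c₆ * t - 3 := by
        have : 1 - W.c₆ * t - 3 = (1 - W.c₆ * t₀ - 3) - W.c₆ * (t - t₀) := by ring
        rw [this]
        exact dvd_sub ht₀9 (ht.mul_left _)
      have hval := hdisc' ht9 W'.Δ (by
        have e := klein_syzygy (w + (t : Qb) • d).1 (w + (t : Qb) • d).2
        rw [hH', hT'] at e
        have h' := congrArg (Int.cast : ℤ → Qb) W'.c_relation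
        push_cast at h'
        linear_combination (1 / 1728 : Qb) * (h' + e))
      rw [hval]
      omega

end FLTAgent.Switch3
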